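import Fermat.Agent.RR_helper45.Basic

/-!
# Finite-dimensionality of `L(D)` and the inequality `l(D) ≤ l(D') + deg D - deg D'` (helper45)
-/

set_option autoImplicit false

noncomputable section

open AlgebraicCurve WithZero

namespace Fermat.Agent.RRh45

variable {K F : Type*} [Field K] [Field F] [Algebra K F]

/-- All residue fields of places are finite over `K`. -/
class FiniteResidues (K F : Type*) [Field K] [Field F] [Algebra K F] : Prop where
  finite : ∀ v : Place K F, Module.Finite K v.ResidueField

instance (priority := 100) [FiniteResidues K F] (v : Place K F) : Module.Finite K v.ResidueField :=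
  FiniteResidues.finite v

instance (priority := 100) [IsCurveOver K F] : FiniteResidues K F :=
  ⟨IsCurveOver.finiteResidue⟩

theorem deg_pos [FiniteResidues K F] (v : Place K F) : 0 < v.deg :=
  Module.finrank_pos

section Steps

variable [FiniteResidues K F]

theorem finite_add_single (D : Divisor K F) (v : Place K F) (n : ℕ)
    [hfin : Module.Finite K (riemannRochSpace D)] :
    Module.Finite K (riemannRochSpace (D + Finsupp.single v (n : ℤ))) ∧
      Module.finrank K (riemannRochSpace (D + Finsupp.single v (n : ℤ))) ≤
        Module.finrank K (riemannRochSpace D) + n * v.deg := by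
  induction n with
  | zero =>
    have h0 : D + Finsupp.single v ((0 : ℕ) : ℤ) = D := by simp
    rw [h0]
    exact ⟨hfin, by simp⟩
  | succ n ih =>
    obtain ⟨h1, h2⟩ := ih
    have heq : D + Finsupp.single v ((n + 1 : ℕ) : ℤ) - Finsupp.single v 1
        = D + Finsupp.single v (n : ℤ) := by
      rw [add_sub_assoc, ← Finsupp.single_sub]
      congr 2
      push_cast
      ring
    have : Module.Finite K
        (riemannRochSpace (D + Finsupp.single v ((n + 1 : ℕ) : ℤ) - Finsupp.single v 1)) := by
      rw [heq]; exact h1
    obtain ⟨h3, h4⟩ := finite_step (D + Finsupp.single v ((n + 1 : ℕ) : ℤ)) v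
    refine ⟨h3, ?_⟩
    rw [heq] at h4
    have : (n + 1) * v.deg = n * v.deg + v.deg := by ring
    omega

theorem finite_add_of_nonneg (E : Divisor K F) (hE : 0 ≤ E) :
    ∀ (D : Divisor K F) [Module.Finite K (riemannRochSpace D)],
    Module.Finite K (riemannRochSpace (D + E)) ∧
      (Module.finrank K (riemannRochSpace (D + E)) : ℤ) ≤
        Module.finrank K (riemannRochSpace D) + Divisor.degree E := by
  induction E using Finsupp.induction with
  | zero =>
    intro D hfin
    rw [add_zero]
    exact ⟨hfin, by simp⟩
  | single_add a b f haf hb ih =>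
    intro D hfin
    have hfa : f a = 0 := Finsupp.notMem_support_iff.mp haf
    have hb0 : 0 ≤ b := by
      have := Finsupp.le_def.mp hE a
      simpa [hfa] using this
    have hf0 : 0 ≤ f := by
      rw [Finsupp.le_def]
      intro w
      by_cases hw : w = a
      · subst hw; simp [hfa]
      · have := Finsupp.le_def.mp hE w
        simpa [Finsupp.single_eq_of_ne hw] using this
    obtain ⟨h1, h2⟩ := ih hf0 D
    obtain ⟨n, rfl⟩ := Int.eq_ofNat_of_zero_le hb0
    have := h1
    obtain ⟨h3, h4⟩ := finite_add_single (D + f) a n
    have heq : D + (Finsupp.single a (n : ℤ) + f) = D + f + Finsupp.single a (n : ℤ) := by abel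
    rw [heq]
    refine ⟨h3, ?_⟩
    rw [map_add, Divisor.degree_single]
    have : ((Module.finrank K (riemannRochSpace (D + f + Finsupp.single a (n : ℤ))) : ℕ) : ℤ) ≤
        (Module.finrank K (riemannRochSpace (D + f)) : ℤ) + (n : ℤ) * (a.deg : ℤ) := by
      exact_mod_cast h4
    linarith

/-- `l(D) ≤ l(D') + deg D - deg D'` for `D' ≤ D`, and finite-dimensionality propagates upward. -/
theorem finite_of_le {D' D : Divisor K F} (h : D' ≤ D) [Module.Finite K (riemannRochSpace D')] :
    Module.Finite K (riemannRochSpace D) ∧
      (Module.finrank K (riemannRochSpace D) : ℤ) ≤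
        Module.finrank K (riemannRochSpace D') + (Divisor.degree D - Divisor.degree D') := by
  have hE : 0 ≤ D - D' := sub_nonneg.mpr h
  have := finite_add_of_nonneg (D - D') hE D'
  rw [add_sub_cancel, map_sub] at this
  exact this

end Steps

/-! ### `L(D) = 0` for `deg D < 0` -/

theorem degree_nonneg_of_nonneg {E : Divisor K F} (hE : 0 ≤ E) : 0 ≤ Divisor.degree E := by
  induction E using Finsupp.induction with
  | zero => simp
  | single_add a b f haf hb ih =>
    have hfa : f a = 0 := Finsupp.notMem_support_iff.mp haf
    have hb0 : 0 ≤ b := by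
      have := Finsupp.le_def.mp hE a
      simpa [hfa] using this
    have hf0 : 0 ≤ f := by
      rw [Finsupp.le_def]
      intro w
      by_cases hw : w = a
      · subst hw; simp [hfa]
      · have := Finsupp.le_def.mp hE w
        simpa [Finsupp.single_eq_of_ne hw] using this
    rw [map_add, Divisor.degree_single]
    have := ih hf0
    positivity

theorem riemannRochSpace_eq_bot_of_degree_neg [HasPrincipalDivisors K F] {D : Divisor K F}
    (hD : Divisor.degree D < 0) : riemannRochSpace D = ⊥ := by
  rw [eq_bot_iff]
  intro f hf
  rw [Submodule.mem_bot]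
  by_contra hf0
  obtain ⟨E, hE, hE0⟩ := HasPrincipalDivisors.exists_divisor (K := K) f hf0
  rw [mem_riemannRochSpace_iff] at hf
  have hnn : 0 ≤ E + D := by
    rw [Finsupp.le_def]
    intro w
    rcases hf w with h | h
    · exact absurd h hf0
    · simp only [Finsupp.coe_zero, Pi.zero_apply, Finsupp.coe_add, Pi.add_apply, hE w]
      omega
  have := degree_nonneg_of_nonneg hnn
  rw [map_add, hE0] at this
  omega

/-! ### finite-dimensionality of every `L(D)` -/

section Finite

variable [FiniteResidues K F] [HasPrincipalDivisors K F]

omit [HasPrincipalDivisors K F] in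
theorem exists_le_degree_neg (v₀ : Place K F) (D : Divisor K F) :
    ∃ D' : Divisor K F, D' ≤ D ∧ Divisor.degree D' < 0 := by
  have hpos : (0 : ℤ) < v₀.deg := by exact_mod_cast deg_pos v₀
  refine ⟨D - Finsupp.single v₀ (|Divisor.degree D| + 1), ?_, ?_⟩
  · rw [sub_le_self_iff, Finsupp.le_def]
    intro w
    by_cases hw : w = v₀
    · subst hw
      simp only [Finsupp.coe_zero, Pi.zero_apply, Finsupp.single_eq_same]
      positivity
    · simp [Finsupp.single_eq_of_ne hw]
  · rw [map_sub, Divisor.degree_single]
    have h1 : Divisor.degree D ≤ |Divisor.degree D| := le_abs_self _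
    have h2 : (|Divisor.degree D| + 1) * 1 ≤ (|Divisor.degree D| + 1) * (v₀.deg : ℤ) := by
      apply mul_le_mul_of_nonneg_left
      · omega
      · positivity
    linarith

theorem finite_riemannRochSpace [Nonempty (Place K F)] (D : Divisor K F) :
    Module.Finite K (riemannRochSpace D) := by
  obtain ⟨v₀⟩ := ‹Nonempty (Place K F)›
  obtain ⟨D', hle, hneg⟩ := exists_le_degree_neg v₀ D
  have : Module.Finite K (riemannRochSpace D') := by
    rw [riemannRochSpace_eq_bot_of_degree_neg hneg]
    infer_instance
  exact (finite_of_le hle).1

instance [Nonempty (Place K F)] (D : Divisor K F) : Module.Finite K (riemannRochSpace D) :=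
  finite_riemannRochSpace D

/-- `l(D') ≤ l(D) ≤ l(D') + deg D - deg D'` for `D' ≤ D`. -/
theorem finrank_le_of_le [Nonempty (Place K F)] {D' D : Divisor K F} (h : D' ≤ D) :
    (Module.finrank K (riemannRochSpace D) : ℤ) ≤
      Module.finrank K (riemannRochSpace D') + (Divisor.degree D - Divisor.degree D') :=
  (finite_of_le h).2

theorem finrank_mono [Nonempty (Place K F)] {D' D : Divisor K F} (h : D' ≤ D) :
    Module.finrank K (riemannRochSpace D') ≤ Module.finrank K (riemannRochSpace D) :=
  Submodule.finrank_mono (riemannRochSpace_mono h)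

end Finite

end Fermat.Agent.RRh45
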