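import Mathlib
import Fermat.Prelude.Def_AlgebraicCurve_Repartitions
import Fermat.Prelude.Def_AlgebraicCurve_IsCurveOver
import Fermat.Agent.S24.PlaceBasic

/-!
# Riemann's theorem for the prelude function-field API: basic layer (helper45)

`K` a field, `F` a field with `Algebra K F`, places = discrete valuation subrings of `F`
containing `K` (`AlgebraicCurve.Place K F`).

This file: elementary order calculus, the one-place evaluation map
`L(D) → κ(v)` with kernel `L(D - v)`.
-/

set_option autoImplicit false

noncomputable section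

open AlgebraicCurve WithZero

namespace Fermat.Agent.RRh45

open Fermat.Agent.S24

variable {K F : Type*} [Field K] [Field F] [Algebra K F]

/-! ### uniformizers and the order filtration -/

section Ord

variable (v : Place K F)

/-- A chosen uniformizer at `v`, as an element of `F`. -/
def unif : F :=
  ((IsDiscreteValuationRing.exists_irreducible v.toValuationSubring).choose : v.toValuationSubring)

theorem ord_unif : v.ord (unif v) = 1 :=
  v.ord_coe_irreducible (IsDiscreteValuationRing.exists_irreducible v.toValuationSubring).choose_spec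

theorem unif_ne_zero : unif v ≠ 0 := by
  intro h
  have := ord_unif v
  rw [h, Place.ord_zero] at this
  exact absurd this (by norm_num)

theorem ord_unif_zpow (n : ℤ) : v.ord (unif v ^ n) = n := by
  rw [v.ord_zpow, ord_unif, mul_one]

/-- `{f | f = 0 ∨ n ≤ ord_v f}` as a `K`-submodule of `F`. -/
def ordGE (n : ℤ) : Submodule K F where
  carrier := {f | f = 0 ∨ n ≤ v.ord f}
  zero_mem' := Or.inl rfl
  add_mem' := by
    rintro f g hf hg
    by_cases hf0 : f = 0
    · simpa [hf0] using hg
    by_cases hg0 : g = 0
    · simpa [hg0] using hf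
    by_cases hfg : f + g = 0
    · exact Or.inl hfg
    right
    have h1 := hf.resolve_left hf0
    have h2 := hg.resolve_left hg0
    exact (le_min h1 h2).trans (PlaceB.ord_add_ge v hf0 hg0 hfg)
  smul_mem' := by
    rintro c f hf
    by_cases hc : c = 0
    · left; simp [hc]
    by_cases hf0 : f = 0
    · left; simp [hf0]
    right
    have hc' : algebraMap K F c ≠ 0 := by simpa using hc
    rw [Algebra.smul_def, v.ord_mul hc' hf0, PlaceB.ord_algebraMap v hc, zero_add]
    exact hf.resolve_left hf0

theorem mem_ordGE {n : ℤ} {f : F} : f ∈ ordGE v n ↔ f = 0 ∨ n ≤ v.ord f := Iff.rfl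

theorem ordGE_anti {m n : ℤ} (h : m ≤ n) : ordGE v n ≤ ordGE v m := by
  rintro f (hf | hf)
  · exact Or.inl hf
  · exact Or.inr (h.trans hf)

theorem mul_unif_zpow_mem {n : ℤ} {f : F} (hf : f ∈ ordGE v n) :
    f * unif v ^ (-n) ∈ v.toValuationSubring := by
  rcases hf with rfl | hf
  · simp
  by_cases hf0 : f = 0
  · simp [hf0]
  have hne : f * unif v ^ (-n) ≠ 0 := mul_ne_zero hf0 (zpow_ne_zero _ (unif_ne_zero v))
  rw [← PlaceB.ord_nonneg_iff v hne, v.ord_mul hf0 (zpow_ne_zero _ (unif_ne_zero v)),
    ord_unif_zpow]
  omega

/-- The "leading coefficient" map `ordGE v n → κ(v)`, `f ↦ (f π^{-n} mod 𝔪_v)`. -/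
def leadCoeff (n : ℤ) : ordGE v n →ₗ[K] v.ResidueField where
  toFun f := IsLocalRing.residue v.toValuationSubring ⟨(f : F) * unif v ^ (-n), mul_unif_zpow_mem v f.2⟩
  map_add' f g := by
    rw [← map_add]
    congr 1
    ext
    simp [add_mul]
  map_smul' c f := by
    rw [RingHom.id_apply, Algebra.smul_def, ← IsLocalRing.ResidueField.algebraMap_eq,
      IsScalarTower.algebraMap_apply K v.toValuationSubring v.ResidueField, ← map_mul]
    congr 1
    ext
    simp [Algebra.smul_def, mul_assoc]

theorem leadCoeff_eq_zero_iff {n : ℤ} (f : ordGE v n) :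
    leadCoeff v n f = 0 ↔ (f : F) ∈ ordGE v (n + 1) := by
  unfold leadCoeff
  simp only [LinearMap.coe_mk, AddHom.coe_mk]
  rw [IsLocalRing.residue_eq_zero_iff]
  by_cases hf0 : (f : F) = 0
  · constructor
    · intro _
      exact Or.inl hf0
    · intro _
      have : (⟨(f : F) * unif v ^ (-n), mul_unif_zpow_mem v f.2⟩ : v.toValuationSubring) = 0 := by
        ext
        simp [hf0]
      rw [this]
      exact Ideal.zero_mem _
  have hne : (f : F) * unif v ^ (-n) ≠ 0 := mul_ne_zero hf0 (zpow_ne_zero _ (unif_ne_zero v))
  have hord : v.ord ((f : F) * unif v ^ (-n)) = v.ord (f : F) - n := by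
    rw [v.ord_mul hf0 (zpow_ne_zero _ (unif_ne_zero v)), ord_unif_zpow]; ring
  rw [mem_ordGE, or_iff_right hf0]
  -- membership in the maximal ideal ↔ positive order
  have : (⟨(f : F) * unif v ^ (-n), mul_unif_zpow_mem v f.2⟩ : v.toValuationSubring) ∈
      IsLocalRing.maximalIdeal v.toValuationSubring ↔ 0 < v.ord ((f : F) * unif v ^ (-n)) := by
    rw [PlaceB.ord_pos_iff v hne, IsLocalRing.mem_maximalIdeal, mem_nonunits_iff]
    rw [← v.adicValuation_coe_eq_one_iff]
    have hle : v.adicValuation ((f : F) * unif v ^ (-n)) ≤ 1 :=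
      v.adicValuation_le_one_of_mem (mul_unif_zpow_mem v f.2)
    exact ⟨fun h => lt_of_le_of_ne hle h, fun h => ne_of_lt h⟩
  rw [this, hord]
  omega

end Ord

end Fermat.Agent.RRh45

namespace Fermat.Agent.RRh45

open Fermat.Agent.S24

variable {K F : Type*} [Field K] [Field F] [Algebra K F]

/-! ### Riemann–Roch spaces: one-step comparison -/

section RRSpace

theorem riemannRochSpace_mono {D D' : Divisor K F} (h : D ≤ D') :
    riemannRochSpace D ≤ riemannRochSpace D' := by
  intro f hf
  rw [mem_riemannRochSpace_iff] at hf ⊢
  intro w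
  rcases hf w with h0 | h0
  · exact Or.inl h0
  · right
    have := Finsupp.le_def.mp h w
    omega

theorem riemannRochSpace_le_ordGE (D : Divisor K F) (v : Place K F) :
    riemannRochSpace D ≤ ordGE v (-D v) := by
  intro f hf
  rw [mem_riemannRochSpace_iff] at hf
  exact hf v

/-- Evaluation of the leading coefficient at `v`: `L(D) → κ(v)`. -/
def evalMap (D : Divisor K F) (v : Place K F) : riemannRochSpace D →ₗ[K] v.ResidueField :=
  (leadCoeff v (-D v)).comp (Submodule.inclusion (riemannRochSpace_le_ordGE D v))

theorem evalMap_eq_zero_iff (D : Divisor K F) (v : Place K F) (f : riemannRochSpace D) :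
    evalMap D v f = 0 ↔ (f : F) ∈ riemannRochSpace (D - Finsupp.single v 1) := by
  unfold evalMap
  rw [LinearMap.comp_apply, leadCoeff_eq_zero_iff]
  have hf := f.2
  rw [mem_riemannRochSpace_iff] at hf ⊢
  simp only [Submodule.coe_inclusion]
  constructor
  · intro h w
    by_cases hw : w = v
    · subst hw
      rcases h with h | h
      · exact Or.inl h
      · right
        simp only [Finsupp.coe_sub, Pi.sub_apply, Finsupp.single_eq_same]
        omega
    · rcases hf w with h0 | h0
      · exact Or.inl h0
      · right
        simp only [Finsupp.coe_sub, Pi.sub_apply]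
        rw [Finsupp.single_eq_of_ne hw]
        simpa using h0
  · intro h
    rcases h v with h0 | h0
    · exact Or.inl h0
    · right
      simp only [Finsupp.coe_sub, Pi.sub_apply, Finsupp.single_eq_same] at h0
      omega

theorem ker_evalMap (D : Divisor K F) (v : Place K F) :
    LinearMap.ker (evalMap D v) =
      (riemannRochSpace (D - Finsupp.single v 1)).comap (riemannRochSpace D).subtype := by
  ext f
  rw [LinearMap.mem_ker, evalMap_eq_zero_iff, Submodule.mem_comap, Submodule.subtype_apply]

theorem sub_single_le (D : Divisor K F) (v : Place K F) : D - Finsupp.single v 1 ≤ D := by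
  rw [Finsupp.le_def]
  intro w
  simp only [Finsupp.coe_sub, Pi.sub_apply]
  by_cases hw : w = v
  · subst hw; simp
  · rw [Finsupp.single_eq_of_ne hw]; simp

/-- One step: if `L(D - v)` is finite-dimensional and `κ(v)` is, then so is `L(D)`, and
`l(D) ≤ l(D - v) + deg v`. -/
theorem finite_step (D : Divisor K F) (v : Place K F) [Module.Finite K v.ResidueField]
    [hfin : Module.Finite K (riemannRochSpace (D - Finsupp.single v 1))] :
    Module.Finite K (riemannRochSpace D) ∧
      Module.finrank K (riemannRochSpace D) ≤
        Module.finrank K (riemannRochSpace (D - Finsupp.single v 1)) + v.deg := by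
  have hle := riemannRochSpace_mono (sub_single_le D v)
  let e := Submodule.comapSubtypeEquivOfLe hle
  have hker : Module.Finite K (LinearMap.ker (evalMap D v)) := by
    rw [ker_evalMap]
    exact Module.Finite.equiv e.symm
  have hquot : Module.Finite K (riemannRochSpace D ⧸ LinearMap.ker (evalMap D v)) :=
    Module.Finite.equiv (evalMap D v).quotKerEquivRange.symm
  have hD : Module.Finite K (riemannRochSpace D) :=
    Module.Finite.of_submodule_quotient (LinearMap.ker (evalMap D v))
  refine ⟨hD, ?_⟩
  have h1 := LinearMap.finrank_range_add_finrank_ker (evalMap D v)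
  have h2 : Module.finrank K (LinearMap.range (evalMap D v)) ≤ v.deg :=
    Submodule.finrank_le _
  have h3 : Module.finrank K (LinearMap.ker (evalMap D v)) =
      Module.finrank K (riemannRochSpace (D - Finsupp.single v 1)) := by
    rw [ker_evalMap]
    exact e.finrank_eq
  omega

end RRSpace

end Fermat.Agent.RRh45
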